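import Mathlib

/-!
# S19 / KM route: the colon space `{u ∈ U | u W ⊆ W'}`.   Owner: helper19.
-/

set_option autoImplicit false

namespace Fermat.Agent.S19.KM

variable {K F : Type*} [Field K] [Field F] [Algebra K F]

/-- the colon space `{u ∈ U | u W ⊆ W'}` -/
def colon (U W W' : Submodule K F) : Submodule K F where
  carrier := {u | u ∈ U ∧ ∀ y ∈ W, u * y ∈ W'}
  zero_mem' := ⟨U.zero_mem, fun y _ => by simp⟩
  add_mem' := fun {a b} ha hb => ⟨U.add_mem ha.1 hb.1, fun y hy => by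
    rw [add_mul]; exact W'.add_mem (ha.2 y hy) (hb.2 y hy)⟩
  smul_mem' := fun c a ha => ⟨U.smul_mem c ha.1, fun y hy => by
    rw [smul_mul_assoc]; exact W'.smul_mem c (ha.2 y hy)⟩

theorem mem_colon {U W W' : Submodule K F} {u : F} :
    u ∈ colon U W W' ↔ u ∈ U ∧ ∀ y ∈ W, u * y ∈ W' := Iff.rfl

end Fermat.Agent.S19.KM
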