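import Fermat.Agent.S19.KM.GR.Semilinear
import Fermat.Agent.S19.KM.GR.Dec
import Fermat.Agent.S19.KM.Deuring.Basic
import Fermat.Agent.S19.KM.Deuring.Adm
import Fermat.Agent.S19.KM.Key.AddReg
import Fermat.Agent.S19.KM.Hopf.Basic
import Fermat.Agent.S19.KM.Hopf.Comul
import Fermat.Agent.S19.KM.Hopf.Equivariant

/-!
# S19 / KM route: the abstract main theorem (section E1).  Owner: helper231 (task 1256).

-/

set_option autoImplicit false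
set_option linter.unusedSectionVars false

noncomputable section

namespace Fermat.Agent.S19.KM

open AlgebraicCurve Fermat.Agent.S24.FF Fermat.Agent.Lib.RR Module Submodule

variable {K F k Fk : Type*} [Field K] [Field F] [Algebra K F] [Field k] [Field Fk] [Algebra k Fk]

/-! ### E1 : file `Main.lean` -/

variable [IsCurve K F] [IsCurve k Fk] (𝔊 : GRData K F k Fk)
variable {X : Type*} [AddCommGroup X] [Finite X] (ι : X →+ Pic0 K F)

theorem GRData.VV_smul {𝔊 : GRData K F k Fk} {ι : X →+ Pic0 K F} {E₀ : Divisor K F}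
    (h : 𝔊.IsAdm ι E₀) {g : SemilinearAut K F} (hg : g ∈ 𝔊.Γ)
    (hd : 𝔊.IsDec g) (hstab : ∀ P : X, ∃ P' : X, ι P' = g⁻¹ • ι P) (m : ℕ) {P P' : X}
    (hP : ι P' = g • ι P) : 𝔊.VV ι (g • E₀) m P' = mapSub g (𝔊.VV ι E₀ m P) := by
  unfold GRData.VV
  rw [mapSub_L, h.smul_EP hg hd hstab hP, smul_sub, smul_comm g m, 𝔊.smul_M hg]

namespace Main

omit [Finite X] in
/-- the permutation of `X` induced by an element of `Γ` -/
theorem exists_perm {𝔊 : GRData K F k Fk} {ι : X →+ Pic0 K F} (hι : Function.Injective ι)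
    (hstab : ∀ g ∈ 𝔊.Γ, ∀ P : X, ∃ P' : X, ι P' = g • ι P) {g : SemilinearAut K F}
    (hg : g ∈ 𝔊.Γ) : ∃ τ : X ≃ X, ∀ P, ι (τ P) = g • ι P := by
  choose f hf using hstab g hg
  choose f' hf' using hstab g⁻¹ (𝔊.Γ.inv_mem hg)
  refine ⟨⟨f, f', fun P => hι ?_, fun P => hι ?_⟩, hf⟩
  · rw [hf', hf, inv_smul_smul]
  · rw [hf, hf', smul_inv_smul]

omit [IsCurve K F] [IsCurve k Fk] [AddCommGroup X] [Finite X] in
theorem prodSet_mono {R : RedData K F k Fk} {H H' : Subalgebra R.A (X → R.A)} (h : H ≤ H') :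
    R.prodSet H ⊆ R.prodSet H' := by
  rintro Φ ⟨a, ha, b, hb, rfl⟩
  exact ⟨a, h ha, b, h hb, rfl⟩

end Main

open Main in
/-- **Main theorem of the KM route (abstract form).**  A finite `Γ`-stable group `X` of divisor
classes of degree zero on a curve with good reduction carries a set `SS` of `A`-valued functions
which separates points, is closed under comultiplication (exactly, with coefficients in `A`),
consists of inertia-equivariant functions and is stable under the decomposition group. -/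
theorem GRData.exists_SS (hι : Function.Injective ι)
    (hstab : ∀ g ∈ 𝔊.Γ, ∀ P : X, ∃ P' : X, ι P' = g • ι P) :
    ∃ SS : Set (X → 𝔊.A),
      (∀ P Q : X, P ≠ Q → ∃ φ ∈ SS, φ P ≠ φ Q) ∧
      (∀ φ ∈ SS, (fun q : X × X => φ (q.1 + q.2)) ∈
        span 𝔊.A (𝔊.prodSet (Algebra.adjoin 𝔊.A SS))) ∧
      (∀ φ ∈ SS, ∀ g ∈ 𝔊.Γ, 𝔊.IsIne g → ∀ P P' : X, ι P' = g • ι P →
        (φ P' : K) = SemilinearAut.baseAut g (φ P : K)) ∧
      (∀ φ ∈ SS, ∀ g ∈ 𝔊.Γ, 𝔊.IsDec g → ∃ φ' ∈ SS, ∀ P P' : X, ι P' = g • ι P →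
        (φ' P' : K) = SemilinearAut.baseAut g (φ P : K)) := by
  obtain ⟨m, hm'⟩ := 𝔊.exists_big (gen K F)
  have hm : 𝔊.Big (gen K F) m := hm' m le_rfl
  obtain ⟨r, v, vb, hv, hspan, -, hfix⟩ := 𝔊.exists_frame m hm.1
  have hspan' : span K (Set.range v) = L (m • 𝔊.M) := hspan
  have hle : ∀ {E₀ : Divisor K F}, 𝔊.IsAdm ι E₀ → ∀ P, 𝔊.VV ι E₀ m P ≤ span K (Set.range v) :=
    fun h P => hspan' ▸ GRData.VV_le h m P
  have hstab' : ∀ g ∈ 𝔊.Γ, ∀ P : X, ∃ P' : X, ι P' = g⁻¹ • ι P :=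
    fun g hg => hstab g⁻¹ (𝔊.Γ.inv_mem hg)
  refine ⟨{φ | ∃ E₀, 𝔊.IsAdm ι E₀ ∧ φ ∈ 𝔊.gens v (𝔊.VV ι E₀ m)}, ?_, ?_, ?_, ?_⟩
  · intro P Q hPQ
    obtain ⟨E₀, hE₀⟩ := 𝔊.exists_isAdm ι
    obtain ⟨φ, hφ, hne⟩ := RedData.exists_gens_ne hv (hle hE₀) (GRData.VV_injective hE₀ hι hm) hPQ
    exact ⟨φ, ⟨E₀, hE₀, hφ⟩, hne⟩
  · rintro φ ⟨E₀, hE₀, hφ⟩
    have h1 := RedData.comul_mem hv (hle hE₀) (GRData.addReg hE₀ hm hv hspan') φ
      (Algebra.subset_adjoin hφ)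
    refine span_mono (prodSet_mono ?_) h1
    exact Algebra.adjoin_mono fun ψ hψ => ⟨E₀, hE₀, hψ⟩
  · rintro φ ⟨E₀, hE₀, hφ⟩ g hg hi P P' hP
    obtain ⟨τ, hτ⟩ := exists_perm hι hstab hg
    have hP' : P' = τ P := hι (hP.trans (hτ P).symm)
    have h𝒱 : ∀ Q, 𝔊.VV ι E₀ m (τ Q) = mapSub g (𝔊.VV ι E₀ m Q) := fun Q => by
      have := GRData.VV_smul hE₀ hg hi.isDec (hstab' g hg) m (hτ Q)
      rwa [hE₀.ine g hg hi] at this
    rw [hP']
    exact RedData.gens_smul_ine hv hi (hfix g hg) τ h𝒱 hφ P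
  · rintro φ ⟨E₀, hE₀, hφ⟩ g hg hd
    obtain ⟨τ, hτ⟩ := exists_perm hι hstab hg
    have h𝒱 : ∀ Q, 𝔊.VV ι (g • E₀) m (τ Q) = mapSub g (𝔊.VV ι E₀ m Q) := fun Q =>
      GRData.VV_smul hE₀ hg hd (hstab' g hg) m (hτ Q)
    obtain ⟨φ', hφ', h⟩ := RedData.exists_gens_smul 𝔊.red_surjective hv hd (hfix g hg) τ h𝒱 hφ
    refine ⟨φ', ⟨g • E₀, hE₀.smul hg hd (hstab' g hg), hφ'⟩, fun P P' hP => ?_⟩
    have hP' : P' = τ P := hι (hP.trans (hτ P).symm)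
    rw [hP']
    exact h P

end Fermat.Agent.S19.KM
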